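/-
Rows49: the "rows" identity  ℘(x; ℤ+ℤτ) + G2(τ) = Σ_m π²/sin²(π(x+mτ))
and homogeneity of ℘.  Mathlib only.
-/
import Mathlib

open UpperHalfPlane hiding I
open EisensteinSeries PeriodPair Complex Filter Topology
open scoped Real

namespace Fermat.Agent.DS.Eis1.Rows49

noncomputable section

/-! ### Part 0: the one–dimensional partial fraction expansion of `π²/sin²` -/

/-- Non-integers stay uniformly away from the integers. -/
theorem exists_pos_le_norm_sub_int {y : ℂ} (hy : y ∈ Complex.integerComplement) :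
    ∃ δ : ℝ, 0 < δ ∧ ∀ k : ℤ, δ ≤ ‖y - k‖ := by
  obtain ⟨ε, hε, hball⟩ := Metric.isOpen_iff.mp Complex.isOpen_compl_range_intCast y hy
  refine ⟨ε, hε, fun k => ?_⟩
  by_contra hlt
  rw [not_le] at hlt
  have hmem : (k : ℂ) ∈ Metric.ball y ε := by
    rw [Metric.mem_ball, dist_comm, dist_eq_norm]; exact hlt
  exact hball hmem ⟨k, rfl⟩

/-- derivative of `x ↦ π cot (π x)` -/
theorem hasDerivAt_pi_cot {y : ℂ} (hy : Complex.sin (π * y) ≠ 0) :
    HasDerivAt (fun x : ℂ => (π : ℂ) * Complex.cot (π * x))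
      (-((π : ℂ) ^ 2 / Complex.sin (π * y) ^ 2)) y := by
  have h1 : HasDerivAt (fun x : ℂ => (π : ℂ) * x) (π : ℂ) y := by
    simpa using (hasDerivAt_id y).const_mul (π : ℂ)
  have hs : HasDerivAt (fun x : ℂ => Complex.sin (π * x)) (Complex.cos (π * y) * π) y :=
    (Complex.hasDerivAt_sin _).comp y h1
  have hc : HasDerivAt (fun x : ℂ => Complex.cos (π * x)) (-Complex.sin (π * y) * π) y :=
    (Complex.hasDerivAt_cos _).comp y h1
  have hq := (hc.div hs hy).const_mul (π : ℂ)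
  refine (hq.congr_deriv ?_).congr_of_eventuallyEq (Eventually.of_forall fun x => ?_)
  · have hsc := Complex.sin_sq_add_cos_sq (π * y)
    field_simp
    linear_combination (-1 : ℂ) * hsc
  · simp only [Complex.cot_eq_cos_div_sin, Pi.div_apply]

/-- `∑ₖ 1/‖y+k‖²` converges. -/
theorem summable_inv_norm_add_int_sq (y : ℂ) : Summable fun k : ℤ => 1 / ‖y + k‖ ^ 2 := by
  have h := (EisensteinSeries.linear_right_summable y 1 (k := 2) le_rfl).norm
  refine h.congr fun k => ?_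
  simp [zpow_ofNat]

theorem summable_inv_add_int_sq (y : ℂ) : Summable fun k : ℤ => 1 / (y + k) ^ 2 := by
  have h := (EisensteinSeries.linear_right_summable y 1 (k := 2) le_rfl)
  refine h.congr fun k => ?_
  simp [zpow_ofNat]

/-- The termwise derivative of the cotangent series. -/
def cotTerm' (x : ℂ) (n : ℕ) : ℂ := -(1 / (x - (n + 1)) ^ 2) - 1 / (x + (n + 1)) ^ 2

theorem hasDerivAt_cotTerm {x : ℂ} (hx : x ∈ Complex.integerComplement) (n : ℕ) :
    HasDerivAt (fun z : ℂ => cotTerm z n) (cotTerm' x n) x := by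
  have h1 : x - ((n : ℂ) + 1) ≠ 0 := by
    simpa [sub_eq_add_neg] using integerComplement_add_ne_zero hx (-(n + 1) : ℤ)
  have h2 : x + ((n : ℂ) + 1) ≠ 0 := by
    simpa using integerComplement_add_ne_zero hx ((n : ℤ) + 1)
  have d1 : HasDerivAt (fun z : ℂ => z - ((n : ℂ) + 1)) 1 x := (hasDerivAt_id x).sub_const _
  have d2 : HasDerivAt (fun z : ℂ => z + ((n : ℂ) + 1)) 1 x := (hasDerivAt_id x).add_const _
  have e1 := d1.inv h1
  have e2 := d2.inv h2
  have := e1.add e2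
  simp only [cotTerm, cotTerm', one_div]
  refine this.congr_deriv ?_
  ring

theorem hasDerivAt_tsum_cotTerm {y : ℂ} (hy : y ∈ Complex.integerComplement) :
    HasDerivAt (fun x : ℂ => ∑' n : ℕ, cotTerm x n) (∑' n : ℕ, cotTerm' y n) y := by
  obtain ⟨δ, hδ, hk⟩ := exists_pos_le_norm_sub_int hy
  -- every point of the ball of radius δ/2 is a non-integer, with `‖x + k‖ ≥ ‖y + k‖ / 2`
  have hlow : ∀ x ∈ Metric.ball y (δ / 2), ∀ k : ℤ, ‖y + k‖ / 2 ≤ ‖x + k‖ := by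
    intro x hx k
    have h1 : δ ≤ ‖y + k‖ := by simpa using hk (-k)
    have h2 : ‖x - y‖ < δ / 2 := by simpa [dist_eq_norm] using hx
    have h3 : ‖y + k‖ ≤ ‖x + k‖ + ‖x - y‖ := by
      have : y + k = (x + k) - (x - y) := by ring
      rw [this]; exact norm_sub_le _ _
    linarith
  have hmem : ∀ x ∈ Metric.ball y (δ / 2), x ∈ Complex.integerComplement := by
    intro x hx ⟨k, hk'⟩
    have h1 := hlow x hx (-k)
    have h2 : δ ≤ ‖y + ((-k : ℤ) : ℂ)‖ := by simpa [sub_eq_add_neg] using hk k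
    rw [← hk'] at h1
    push_cast at h1 h2
    simp only [add_neg_cancel, norm_zero] at h1
    linarith
  set u : ℕ → ℝ := fun n => 4 * (1 / ‖y + ((-(n + 1 : ℤ) : ℤ) : ℂ)‖ ^ 2)
    + 4 * (1 / ‖y + (((n : ℤ) + 1 : ℤ) : ℂ)‖ ^ 2) with hu
  have hsum := summable_inv_norm_add_int_sq y
  have hu_sum : Summable u := by
    refine Summable.add ?_ ?_
    · refine Summable.mul_left 4 ?_
      exact hsum.comp_injective (i := fun n : ℕ => (-(n + 1 : ℤ) : ℤ))
        (fun a b h => by simpa using h)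
    · refine Summable.mul_left 4 ?_
      exact hsum.comp_injective (i := fun n : ℕ => ((n : ℤ) + 1 : ℤ))
        (fun a b h => by simpa using h)
  have hbound : ∀ x ∈ Metric.ball y (δ / 2), ∀ k : ℤ, ‖1 / (x + k) ^ 2‖ ≤ 4 * (1 / ‖y + k‖ ^ 2) := by
    intro x hx k
    have h1 := hlow x hx k
    have h0 : 0 < ‖y + k‖ := lt_of_lt_of_le hδ (by simpa using hk (-k))
    rw [norm_div, norm_one, norm_pow]
    have h4 : (‖y + k‖ / 2) ^ 2 ≤ ‖x + k‖ ^ 2 := by gcongr
    have h5 : 0 < (‖y + k‖ / 2) ^ 2 := by positivity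
    calc 1 / ‖x + k‖ ^ 2 ≤ 1 / (‖y + k‖ / 2) ^ 2 := one_div_le_one_div_of_le h5 h4
      _ = 4 * (1 / ‖y + k‖ ^ 2) := by field_simp; ring
  refine hasDerivAt_tsum_of_isPreconnected (u := u) (t := Metric.ball y (δ / 2))
    (g := fun n x => cotTerm x n) (g' := fun n x => cotTerm' x n) (y₀ := y) hu_sum
    Metric.isOpen_ball (convex_ball _ _).isPreconnected
    (fun n x hx => hasDerivAt_cotTerm (hmem x hx) n) ?_ (Metric.mem_ball_self (by positivity))
    (summable_cotTerm hy) (Metric.mem_ball_self (by positivity))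
  intro n x hx
  have b1 := hbound x hx (-(n + 1 : ℤ))
  have b2 := hbound x hx ((n : ℤ) + 1)
  have e1 : x - ((n : ℂ) + 1) = x + ((-(n + 1 : ℤ) : ℤ) : ℂ) := by push_cast; ring
  have e2 : x + ((n : ℂ) + 1) = x + (((n : ℤ) + 1 : ℤ) : ℂ) := by push_cast; ring
  simp only [cotTerm', hu]
  rw [e1, e2]
  calc ‖-(1 / (x + ((-(n + 1 : ℤ) : ℤ) : ℂ)) ^ 2) - 1 / (x + (((n : ℤ) + 1 : ℤ) : ℂ)) ^ 2‖
      ≤ ‖-(1 / (x + ((-(n + 1 : ℤ) : ℤ) : ℂ)) ^ 2)‖ + ‖1 / (x + (((n : ℤ) + 1 : ℤ) : ℂ)) ^ 2‖ :=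
        norm_sub_le _ _
    _ ≤ _ := by rw [norm_neg]; exact add_le_add b1 b2

theorem tsum_cotTerm'_eq {y : ℂ} (hy : y ∈ Complex.integerComplement) :
    ∑' n : ℕ, cotTerm' y n = -((π : ℂ) ^ 2 / Complex.sin (π * y) ^ 2) + 1 / y ^ 2 := by
  have hF := hasDerivAt_tsum_cotTerm hy
  have hy0 : y ≠ 0 := integerComplement.ne_zero hy
  have hG : HasDerivAt (fun x : ℂ => (π : ℂ) * Complex.cot (π * x) - 1 / x)
      (-((π : ℂ) ^ 2 / Complex.sin (π * y) ^ 2) + 1 / y ^ 2) y := by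
    have h1 := hasDerivAt_pi_cot (sin_pi_mul_ne_zero hy)
    have h2 := hasDerivAt_inv hy0
    have := h1.sub h2
    simp only [one_div]
    refine this.congr_deriv ?_
    ring
  have hEq : (fun x : ℂ => ∑' n : ℕ, cotTerm x n) =ᶠ[𝓝 y]
      fun x : ℂ => (π : ℂ) * Complex.cot (π * x) - 1 / x := by
    filter_upwards [Complex.isOpen_compl_range_intCast.mem_nhds hy] with x hx
    exact (cot_series_rep' hx).symm
  exact (hF.congr_of_eventuallyEq hEq.symm).unique hG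

/-- **Partial fractions of `π²/sin²`**, valid at every non-integer. -/
theorem hasSum_inv_add_int_sq {y : ℂ} (hy : y ∈ Complex.integerComplement) :
    HasSum (fun n : ℤ => 1 / (y + n) ^ 2) ((π : ℂ) ^ 2 / Complex.sin (π * y) ^ 2) := by
  have hs := summable_inv_add_int_sq y
  have hs1 : Summable fun n : ℕ => 1 / (y + ((n : ℤ) : ℂ)) ^ 2 :=
    hs.comp_injective (i := fun n : ℕ => (n : ℤ)) Nat.cast_injective
  have hs2 : Summable fun n : ℕ => 1 / (y + ((-((n : ℤ) + 1) : ℤ) : ℂ)) ^ 2 :=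
    hs.comp_injective (i := fun n : ℕ => (-((n : ℤ) + 1) : ℤ)) (fun a b h => by simpa using h)
  have hs3 : Summable fun n : ℕ => 1 / (y + (((n + 1 : ℕ) : ℤ) : ℂ)) ^ 2 :=
    hs.comp_injective (i := fun n : ℕ => ((n + 1 : ℕ) : ℤ)) (fun a b h => by simpa using h)
  have hsum := HasSum.of_nat_of_neg_add_one (f := fun n : ℤ => 1 / (y + n) ^ 2) hs1.hasSum hs2.hasSum
  suffices h : (π : ℂ) ^ 2 / Complex.sin (π * y) ^ 2 = ∑' n : ℕ, 1 / (y + ((n : ℤ) : ℂ)) ^ 2
      + ∑' n : ℕ, 1 / (y + ((-((n : ℤ) + 1) : ℤ) : ℂ)) ^ 2 by rw [h]; exact hsum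
  rw [hs1.tsum_eq_zero_add, add_assoc, ← hs3.tsum_add hs2]
  have key := tsum_cotTerm'_eq hy
  have hterm : ∀ n : ℕ, 1 / (y + (((n + 1 : ℕ) : ℤ) : ℂ)) ^ 2
      + 1 / (y + ((-((n : ℤ) + 1) : ℤ) : ℂ)) ^ 2 = -cotTerm' y n := by
    intro n
    simp only [cotTerm']
    push_cast
    ring
  rw [tsum_congr hterm, tsum_neg, key]
  simp
/-- The same with `y - n`. -/
theorem hasSum_inv_sub_int_sq {y : ℂ} (hy : y ∈ Complex.integerComplement) :
    HasSum (fun n : ℤ => 1 / (y - n) ^ 2) ((π : ℂ) ^ 2 / Complex.sin (π * y) ^ 2) := by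
  have h := (Equiv.neg ℤ).hasSum_iff.mpr (hasSum_inv_add_int_sq hy)
  convert h using 2 with n
  simp [sub_eq_add_neg]

/-- the period pair `(1, τ)` -/
def ppTau (τ : ℍ) : PeriodPair where
  ω₁ := 1
  ω₂ := (τ : ℂ)
  indep := by
    rw [LinearIndependent.pair_iff]
    intro s t h
    have him := congrArg Complex.im h
    have hre := congrArg Complex.re h
    simp at him hre
    have ht : t = 0 := by
      rcases him with h | h
      · exact h
      · exact absurd h τ.im_ne_zero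
    subst ht
    simp at hre
    exact ⟨hre, rfl⟩

@[simp] theorem ppTau_ω₁ (τ : ℍ) : (ppTau τ).ω₁ = 1 := rfl
@[simp] theorem ppTau_ω₂ (τ : ℍ) : (ppTau τ).ω₂ = (τ : ℂ) := rfl

theorem mem_lattice_ppTau {τ : ℍ} {x : ℂ} :
    x ∈ (ppTau τ).lattice ↔ ∃ m n : ℤ, (m : ℂ) + n * (τ : ℂ) = x := by
  rw [PeriodPair.mem_lattice]
  simp

/-! ### Part 2: `G2` as an absolutely convergent sum of rows -/

theorem e2Summand_succ_eq (τ : ℍ) (a : ℕ) :
    e2Summand ((a : ℤ) + 1) τ =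
      -4 * (π : ℂ) ^ 2 * ∑' n : ℕ+, (n : ℂ) * cexp (2 * π * I * τ) ^ ((a + 1) * n : ℕ) := by
  have H2 := qExpansion_identity_pnat (k := 1) le_rfl
    ⟨((a : ℂ) + 1) * τ, by
      have h : 0 < ((a : ℝ) + 1) := by positivity
      simpa [h] using τ.2⟩
  simp only [e2Summand, eisSummand]
  simp only [Fin.isValue, Matrix.cons_val_zero, Matrix.cons_val_one, Matrix.cons_val_fin_one,
    Int.cast_add, Int.cast_natCast, Int.cast_one]
  have e1 : ∀ n : ℤ, (((a : ℂ) + 1) * (τ : ℂ) + (n : ℂ)) ^ (-2 : ℤ)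
      = 1 / ((((a : ℂ) + 1) * (τ : ℂ)) + (n : ℂ)) ^ (1 + 1) := by
    intro n
    rw [zpow_neg, one_div]
    norm_num
  rw [tsum_congr e1]
  rw [show (((⟨((a : ℂ) + 1) * τ, _⟩ : ℍ) : ℂ)) = ((a : ℂ) + 1) * τ from rfl] at H2
  rw [H2]
  have e2 : (-2 * (π : ℂ) * I) ^ (1 + 1) / ((1 : ℕ).factorial : ℂ) = -4 * (π : ℂ) ^ 2 := by
    simp only [Nat.factorial_one, Nat.cast_one, div_one]
    ring_nf
    simp [I_sq]
  rw [e2]
  congr 1
  refine tsum_congr fun n => ?_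
  rw [pow_one, ← Complex.exp_nat_mul, ← Complex.exp_nat_mul]
  congr 2
  push_cast
  ring

theorem summable_e2Summand_succ (τ : ℍ) : Summable fun a : ℕ => e2Summand ((a : ℤ) + 1) τ := by
  have hq : ‖cexp (2 * π * I * τ)‖ < 1 := norm_exp_two_pi_I_lt_one τ
  have h1 := (summable_prod_mul_pow (𝕜 := ℂ) 1 hq).prod
  have h2 : Summable fun d : ℕ+ => ∑' n : ℕ+, (n : ℂ) * cexp (2 * π * I * τ) ^ ((d : ℕ) * n : ℕ) := by
    refine h1.congr fun d => ?_
    refine tsum_congr fun n => ?_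
    simp
  have h3 := (summable_pnat_iff_summable_succ
    (f := fun d : ℕ => ∑' n : ℕ+, (n : ℂ) * cexp (2 * π * I * τ) ^ (d * n : ℕ))).mp h2
  refine (h3.mul_left (-4 * (π : ℂ) ^ 2)).congr fun a => ?_
  rw [e2Summand_succ_eq]

theorem summable_e2Summand (τ : ℍ) : Summable fun m : ℤ => e2Summand m τ := by
  have hs := summable_e2Summand_succ τ
  refine Summable.of_nat_of_neg_add_one ?_ ?_
  · refine (summable_nat_add_iff 1).mp ?_
    refine hs.congr fun a => ?_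
    push_cast
    rfl
  · refine hs.congr fun a => ?_
    exact (e2Summand_even τ _).symm

/-- `G2` as an unconditionally convergent sum of its rows. -/
theorem hasSum_e2Summand (τ : ℍ) : HasSum (fun m : ℤ => e2Summand m τ) (G2 τ) := by
  have hs := summable_e2Summand τ
  have : G2 τ = ∑' m : ℤ, e2Summand m τ := by
    rw [G2]
    exact tsum_eq_of_summable_unconditional hs
  rw [this]
  exact hs.hasSum

/-! ### Part 3: Fubini on `℘` -/

/-- `℘` for the lattice `ℤ + ℤτ`, as a sum over `(n, m) ↦ n + mτ`. -/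
theorem hasSum_weierstrassP_prod (τ : ℍ) (z : ℂ) :
    HasSum (fun p : ℤ × ℤ => 1 / (z - ((p.1 : ℂ) + p.2 * τ)) ^ 2 - 1 / ((p.1 : ℂ) + p.2 * τ) ^ 2)
      (℘[ppTau τ] z) := by
  have h := (ppTau τ).hasSum_weierstrassP z
  have h2 := (ppTau τ).latticeEquivProd.symm.toEquiv.hasSum_iff.mpr h
  have e : (fun p : ℤ × ℤ => 1 / (z - ((p.1 : ℂ) + p.2 * τ)) ^ 2 - 1 / ((p.1 : ℂ) + p.2 * τ) ^ 2)
      = (fun l : (ppTau τ).lattice => 1 / (z - l) ^ 2 - 1 / (l : ℂ) ^ 2) ∘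
        (ppTau τ).latticeEquivProd.symm.toEquiv := by
    funext p
    have := (ppTau τ).latticeEquiv_symm_apply p
    simp only [Function.comp_apply, LinearEquiv.coe_toEquiv, this, ppTau_ω₁, ppTau_ω₂, mul_one]
  rw [e]
  exact h2

theorem sub_int_mul_mem_integerComplement {τ : ℍ} {z : ℂ} (hz : z ∉ (ppTau τ).lattice) (m : ℤ) :
    z - m * (τ : ℂ) ∈ Complex.integerComplement := by
  rintro ⟨n, hn⟩
  exact hz (mem_lattice_ppTau.mpr ⟨n, m, by rw [hn]; ring⟩)

/-- the `m`-th row of `℘` -/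
theorem hasSum_row (τ : ℍ) {z : ℂ} (hz : z ∉ (ppTau τ).lattice) (m : ℤ) :
    HasSum (fun n : ℤ => 1 / (z - ((n : ℂ) + m * τ)) ^ 2 - 1 / ((n : ℂ) + m * τ) ^ 2)
      ((π : ℂ) ^ 2 / Complex.sin (π * (z - m * τ)) ^ 2 - e2Summand m τ) := by
  have h1 := hasSum_inv_sub_int_sq (sub_int_mul_mem_integerComplement hz m)
  have h2 : HasSum (fun n : ℤ => 1 / ((n : ℂ) + m * τ) ^ 2) (e2Summand m τ) := by
    have := (e2Summand_summable m τ).hasSum
    rw [← e2Summand] at this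
    have e : (fun n : ℤ => 1 / ((n : ℂ) + m * τ) ^ 2) = fun n : ℤ => eisSummand 2 ![m, n] τ := by
      funext n
      simp only [eisSummand, Fin.isValue, Matrix.cons_val_zero, Matrix.cons_val_one,
        Matrix.cons_val_fin_one]
      rw [zpow_neg, one_div, add_comm]
      norm_num
    rw [e]
    exact this
  have e : (fun n : ℤ => 1 / (z - ((n : ℂ) + m * τ)) ^ 2 - 1 / ((n : ℂ) + m * τ) ^ 2)
      = fun n : ℤ => 1 / (z - m * τ - n) ^ 2 - 1 / ((n : ℂ) + m * τ) ^ 2 := by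
    funext n
    rw [show z - ((n : ℂ) + m * τ) = z - m * τ - n by ring]
  rw [e]
  exact h1.sub h2

/-- **ROWS**, first form. -/
theorem hasSum_rows_sub (τ : ℍ) {z : ℂ} (hz : z ∉ (ppTau τ).lattice) :
    HasSum (fun m : ℤ => (π : ℂ) ^ 2 / Complex.sin (π * (z - m * τ)) ^ 2)
      (℘[ppTau τ] z + G2 τ) := by
  have h := hasSum_weierstrassP_prod τ z
  have h2 := (Equiv.prodComm ℤ ℤ).hasSum_iff.mpr h
  have h3 := h2.prod_fiberwise (g := fun m : ℤ =>
      (π : ℂ) ^ 2 / Complex.sin (π * (z - m * τ)) ^ 2 - e2Summand m τ)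
    (fun m => by simpa using hasSum_row τ hz m)
  have h4 := h3.add (hasSum_e2Summand τ)
  simpa using h4

/-- **ROWS**: `℘(x; ℤ+ℤτ) + G2(τ) = Σ_m π²/sin²(π(x+mτ))`. -/
theorem hasSum_rows (τ : ℍ) {x : ℂ} (hx : x ∉ (ppTau τ).lattice) :
    HasSum (fun m : ℤ => (π : ℂ) ^ 2 / Complex.sin (π * (x + m * (τ : ℂ))) ^ 2)
      (℘[ppTau τ] x + G2 τ) := by
  have h := (Equiv.neg ℤ).hasSum_iff.mpr (hasSum_rows_sub τ hx)
  have e : (fun m : ℤ => (π : ℂ) ^ 2 / Complex.sin (π * (x + m * (τ : ℂ))) ^ 2)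
      = (fun m : ℤ => (π : ℂ) ^ 2 / Complex.sin (π * (x - m * τ)) ^ 2) ∘ (Equiv.neg ℤ) := by
    funext m
    simp [sub_eq_add_neg]
  rw [e]
  exact h

/-! ### Part 4: homogeneity of `℘` -/

/-- Homogeneity of `℘`: if `L' = c • L` then `℘[L'] (c z) = c⁻² ℘[L] z`. -/
theorem weierstrassP_mul_of_lattice (L L' : PeriodPair) {c : ℂ} (hc : c ≠ 0)
    (h : ∀ z : ℂ, z ∈ L'.lattice ↔ c⁻¹ * z ∈ L.lattice) (z : ℂ) :
    ℘[L'] (c * z) = (c ^ 2)⁻¹ * ℘[L] z := by
  let e : L.lattice ≃ L'.lattice :=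
    { toFun := fun l => ⟨c * l, (h _).mpr (by simp [hc])⟩
      invFun := fun l' => ⟨c⁻¹ * l', (h _).mp l'.2⟩
      left_inv := fun l => by ext; simp [hc]
      right_inv := fun l' => by ext; simp [hc] }
  have he : ∀ l : L.lattice, ((e l : L'.lattice) : ℂ) = c * l := fun l => rfl
  unfold PeriodPair.weierstrassP
  rw [← e.tsum_eq, ← tsum_mul_left]
  refine tsum_congr fun l => ?_
  rw [he, ← mul_sub, mul_pow, mul_pow]
  simp only [one_div, mul_inv]
  ring

/-- `℘` only depends on the lattice. -/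
theorem weierstrassP_congr_lattice (L L' : PeriodPair) (h : L.lattice = L'.lattice) :
    ℘[L'] = ℘[L] := by
  funext z
  have := weierstrassP_mul_of_lattice L L' (c := 1) one_ne_zero (fun w => by simp [h]) z
  simpa using this

theorem coe_S_smul (τ : ℍ) : ((ModularGroup.S • τ : ℍ) : ℂ) = -(τ : ℂ)⁻¹ := by
  rw [UpperHalfPlane.modular_S_smul]
  simp [inv_neg]

/-- The instance of homogeneity needed for the `S`-transformation. -/
theorem weierstrassP_S (τ : ℍ) (x : ℂ) :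
    ℘[ppTau (ModularGroup.S • τ)] (x / (τ : ℂ)) = (τ : ℂ) ^ 2 * ℘[ppTau τ] x := by
  have hτ : (τ : ℂ) ≠ 0 := UpperHalfPlane.ne_zero τ
  have key := weierstrassP_mul_of_lattice (ppTau τ) (ppTau (ModularGroup.S • τ))
    (c := (τ : ℂ)⁻¹) (inv_ne_zero hτ) ?_ x
  · rw [div_eq_inv_mul, key]
    simp
  · intro z
    rw [inv_inv, mem_lattice_ppTau, mem_lattice_ppTau, coe_S_smul]
    constructor
    · rintro ⟨m, n, rfl⟩
      refine ⟨-n, m, ?_⟩
      push_cast
      field_simp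
      ring
    · rintro ⟨m, n, hmn⟩
      refine ⟨n, -m, ?_⟩
      have : z = ((m : ℂ) + n * τ) / τ := by rw [hmn]; field_simp
      rw [this]
      push_cast
      field_simp
      ring

end

end Fermat.Agent.DS.Eis1.Rows49
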