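/-
RowsUHP49: the ROWS identity of `Rows49` restated for the tree's period pair
`Fermat.Agent.X0.LatticeEis.pairOfUHP τ = (τ, 1)`.
-/
import Fermat.Agent.DS.Eis1.Rows49
import Fermat.Agent.X0.LatticeEis

open UpperHalfPlane hiding I
open EisensteinSeries PeriodPair Complex
open scoped Real
open Fermat.Agent.X0.LatticeEis Fermat.Agent.DS.Eis1.Rows49

namespace Fermat.Agent.DS.Eis1.RowsUHP49

theorem lattice_pairOfUHP (τ : ℍ) : (pairOfUHP τ).lattice = (ppTau τ).lattice := by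
  ext x
  rw [mem_lattice_ppTau, PeriodPair.mem_lattice]
  simp only [pairOfUHP_ω₁, pairOfUHP_ω₂, mul_one]
  constructor
  · rintro ⟨m, n, rfl⟩
    exact ⟨n, m, by ring⟩
  · rintro ⟨m, n, rfl⟩
    exact ⟨n, m, by ring⟩

theorem weierstrassP_pairOfUHP (τ : ℍ) : ℘[pairOfUHP τ] = ℘[ppTau τ] :=
  weierstrassP_congr_lattice (ppTau τ) (pairOfUHP τ) (lattice_pairOfUHP τ).symm

/-- **ROWS** for `pairOfUHP`. -/
theorem hasSum_rows_pairOfUHP (τ : ℍ) {x : ℂ} (hx : x ∉ (pairOfUHP τ).lattice) :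
    HasSum (fun m : ℤ => (π : ℂ) ^ 2 / Complex.sin (π * (x + m * (τ : ℂ))) ^ 2)
      (℘[pairOfUHP τ] x + G2 τ) := by
  rw [weierstrassP_pairOfUHP]
  exact hasSum_rows τ (by rwa [← lattice_pairOfUHP])

end Fermat.Agent.DS.Eis1.RowsUHP49
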