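/-
Programme DS / G1 (S48 = Deligne–Serre), chapter B6 (weight 1 → weight 2), helper86.

TEICHMÜLLER CHARACTER AND KUMMER'S CONGRUENCE, Mathlib only.

`𝕆 := integralClosure ℤ ℂ` (the carrier of `S49/CommAlg.exists_eigenvector_lift`).  For an odd
prime `ℓ` and a maximal ideal `𝔪` of `𝕆` over `ℓ` we construct the Dirichlet character
`χ = ω⁻¹ : DirichletCharacter ℂ ℓ` (`ω` = the Teichmüller character with respect to `𝔪`):

* `χ` is odd;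
* its values are algebraic integers and `χ(a) · a ≡ 1 (mod 𝔪)` for `a ≠ 0`;
* **Kummer's congruence** `∑_{k < ℓ} χ(k) k ≡ -1 (mod 𝔪)` (i.e. `ℓ · B_{1,χ} ≡ -1`).

Consequence (`exists_teichmuller_series`): the series `G = (-2ℓ) · E₁^χ`, where `E₁^χ` has constant
term `-(1/(2ℓ)) ∑ χ(k) k` and `n`-th coefficient `∑_{d ∣ n} χ(d)` (the exit literal of
`DS/Eis1/*91.exists_eisOne`), has coefficients in `𝕆`, constant term `≡ -1` and all other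
coefficients `≡ 0 (mod 𝔪)`.  So `-(f · G) ≡ f (mod 𝔪)` coefficientwise (`coeff_mul_sub_mem`): no
localisation and no division by the Bernoulli number is needed.
-/
import Mathlib

set_option autoImplicit false

open Polynomial

namespace Fermat.Agent.DS.Eis1.Teich86

local notation "𝕆" => integralClosure ℤ ℂ

/-! ### 1. A root of unity congruent to a given integer -/

/-- If `bⁿ ≡ 1` modulo a prime ideal `𝔪` of the algebraic integers, then `b` is congruent modulo `𝔪`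
to an `n`-th root of unity. -/
theorem exists_root_congr {n : ℕ} (hn : 0 < n) (𝔪 : Ideal 𝕆) [h𝔪 : 𝔪.IsPrime] (b : 𝕆)
    (hb : b ^ n - 1 ∈ 𝔪) : ∃ ξ : 𝕆, ξ ^ n = 1 ∧ b - ξ ∈ 𝔪 := by
  classical
  -- a primitive `n`-th root of unity in `𝕆`
  have hζ : IsPrimitiveRoot (Complex.exp (2 * Real.pi * Complex.I / n)) n :=
    Complex.isPrimitiveRoot_exp n hn.ne'
  have hint : Complex.exp (2 * Real.pi * Complex.I / n) ∈ 𝕆 := by
    rw [mem_integralClosure_iff]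
    refine IsIntegral.of_pow hn ?_
    rw [hζ.pow_eq_one]
    exact isIntegral_one
  set ζ₀ : 𝕆 := ⟨_, hint⟩ with hζ₀def
  have hζ₀ : IsPrimitiveRoot ζ₀ n := by
    refine IsPrimitiveRoot.of_map_of_injective (f := (integralClosure ℤ ℂ).val) ?_
      Subtype.coe_injective
    simpa [hζ₀def] using hζ
  have hfact := X_pow_sub_one_eq_prod hn hζ₀
  have heval : b ^ n - 1 = ∏ ζ ∈ nthRootsFinset n (1 : 𝕆), (b - ζ) := by
    have := congrArg (Polynomial.eval b) hfact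
    simpa [eval_prod] using this
  rw [heval, Ideal.IsPrime.prod_mem_iff] at hb
  obtain ⟨ξ, hξ, hmem⟩ := hb
  exact ⟨ξ, (mem_nthRootsFinset hn 1).1 hξ, hmem⟩

/-! ### 2. The residue field -/

section Residue

variable (ℓ : ℕ) [hℓF : Fact ℓ.Prime] (𝔪 : Ideal 𝕆) [h𝔪 : 𝔪.IsMaximal]

/-- the residue field has characteristic `ℓ`. -/
theorem charP_quotient (hℓ : (ℓ : 𝕆) ∈ 𝔪) : CharP (𝕆 ⧸ 𝔪) ℓ := by
  have : Nontrivial (𝕆 ⧸ 𝔪) := Ideal.Quotient.nontrivial_iff.mpr h𝔪.ne_top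
  rw [CharP.charP_iff_prime_eq_zero hℓF.out]
  have : ((ℓ : 𝕆 ⧸ 𝔪)) = Ideal.Quotient.mk 𝔪 (ℓ : 𝕆) := by simp
  rw [this, Ideal.Quotient.eq_zero_iff_mem]
  exact hℓ

end Residue

/-! ### 3. The Teichmüller character -/

/-- **The Teichmüller character** with respect to a maximal ideal `𝔪` of the algebraic integers over
a prime `ℓ`: a homomorphism `ω : (ℤ/ℓ)ˣ → 𝕆ˣ` with `ω(a) ≡ a (mod 𝔪)`. -/
theorem exists_omega (ℓ : ℕ) [hℓF : Fact ℓ.Prime] (𝔪 : Ideal 𝕆) [h𝔪 : 𝔪.IsMaximal]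
    (hℓ : (ℓ : 𝕆) ∈ 𝔪) :
    ∃ ω : (ZMod ℓ)ˣ →* 𝕆ˣ, ∀ a : (ZMod ℓ)ˣ,
      ((ω a : 𝕆ˣ) : 𝕆) - (((a : ZMod ℓ).val : ℕ) : 𝕆) ∈ 𝔪 := by
  classical
  have hchar : CharP (𝕆 ⧸ 𝔪) ℓ := charP_quotient ℓ 𝔪 hℓ
  have hℓpos : 0 < ℓ - 1 := Nat.sub_pos_of_lt hℓF.out.one_lt
  -- a generator of `(ℤ/ℓ)ˣ`
  obtain ⟨g, hg⟩ := IsCyclic.exists_generator (α := (ZMod ℓ)ˣ)
  have hord : orderOf g = ℓ - 1 := by
    rw [orderOf_eq_card_of_forall_mem_zpowers hg, Nat.card_eq_fintype_card, ZMod.card_units_eq_totient,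
      Nat.totient_prime hℓF.out]
  -- the integer `b = val g`
  set b : 𝕆 := (((g : ZMod ℓ).val : ℕ) : 𝕆) with hbdef
  let π : 𝕆 →+* 𝕆 ⧸ 𝔪 := Ideal.Quotient.mk 𝔪
  let ι : ZMod ℓ →+* 𝕆 ⧸ 𝔪 := ZMod.castHom (dvd_refl ℓ) (𝕆 ⧸ 𝔪)
  have hπnat : ∀ a : ZMod ℓ, π ((a.val : ℕ) : 𝕆) = ι a := by
    intro a
    have h1 : π ((a.val : ℕ) : 𝕆) = ((a.val : ℕ) : 𝕆 ⧸ 𝔪) := map_natCast π _
    have h2 : ι a = ι (((a.val : ℕ) : ZMod ℓ)) := by rw [ZMod.natCast_zmod_val]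
    rw [h1, h2, map_natCast]
  have hb : b ^ (ℓ - 1) - 1 ∈ 𝔪 := by
    rw [← Ideal.Quotient.eq_zero_iff_mem, map_sub, map_pow, map_one]
    change π b ^ (ℓ - 1) - 1 = 0
    rw [hbdef, hπnat, ← map_pow, ← Units.val_pow_eq_pow_val, ← hord, pow_orderOf_eq_one,
      Units.val_one, map_one, sub_self]
  obtain ⟨ξ, hξ1, hξb⟩ := exists_root_congr hℓpos 𝔪 b hb
  let ξu : 𝕆ˣ := Units.ofPowEqOne ξ (ℓ - 1) hξ1 hℓpos.ne'
  have hξu : orderOf ξu ∣ orderOf g := by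
    rw [hord]
    apply orderOf_dvd_of_pow_eq_one
    ext
    simp [ξu]
  let ω : (ZMod ℓ)ˣ →* 𝕆ˣ := monoidHomOfForallMemZpowers hg hξu
  have hωg : ω g = ξu := monoidHomOfForallMemZpowers_apply_gen hg hξu
  refine ⟨ω, ?_⟩
  -- compare the two homomorphisms `(ℤ/ℓ)ˣ → (𝕆/𝔪)ˣ` on the generator
  let f₁ : (ZMod ℓ)ˣ →* (𝕆 ⧸ 𝔪)ˣ := (Units.map π.toMonoidHom).comp ω
  let f₂ : (ZMod ℓ)ˣ →* (𝕆 ⧸ 𝔪)ˣ := Units.map ι.toMonoidHom
  have hf : f₁ = f₂ := by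
    rw [MonoidHom.eq_iff_eq_on_generator hg]
    ext
    change π ((ω g : 𝕆ˣ) : 𝕆) = ι (g : ZMod ℓ)
    rw [hωg, ← hπnat]
    change π ξ = π b
    have : π (b - ξ) = 0 := Ideal.Quotient.eq_zero_iff_mem.mpr hξb
    rw [map_sub, sub_eq_zero] at this
    exact this.symm
  intro a
  rw [← Ideal.Quotient.eq_zero_iff_mem, map_sub, sub_eq_zero]
  change π ((ω a : 𝕆ˣ) : 𝕆) = π (((a : ZMod ℓ).val : ℕ) : 𝕆)
  rw [hπnat]
  have := congrArg (fun f : (ZMod ℓ)ˣ →* (𝕆 ⧸ 𝔪)ˣ => ((f a : (𝕆 ⧸ 𝔪)ˣ) : 𝕆 ⧸ 𝔪)) hf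
  exact this

/-! ### 4. The character `χ = ω⁻¹` and Kummer's congruence -/

/-- **Teichmüller + Kummer.**  For an odd prime `ℓ` and a maximal ideal `𝔪` of the algebraic integers
over `ℓ` there is an odd Dirichlet character `χ` modulo `ℓ` (`= ω⁻¹`) with algebraic-integer values,
`χ(a) · a ≡ 1 (mod 𝔪)` for `a ≠ 0`, and `∑_{k < ℓ} χ(k) k ≡ -1 (mod 𝔪)`. -/
theorem exists_teichmuller (ℓ : ℕ) [hℓF : Fact ℓ.Prime] (hℓ2 : ℓ ≠ 2) (𝔪 : Ideal 𝕆)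
    [h𝔪 : 𝔪.IsMaximal] (hℓ : (ℓ : 𝕆) ∈ 𝔪) :
    ∃ χ : DirichletCharacter ℂ ℓ, χ.Odd ∧
      (∀ a : ZMod ℓ, ∃ x : 𝕆, (x : ℂ) = χ a ∧
        x * ((a.val : ℕ) : 𝕆) - (if a = 0 then 0 else 1) ∈ 𝔪) ∧
      ∃ S : 𝕆, (S : ℂ) = ∑ k ∈ Finset.range ℓ, χ (k : ZMod ℓ) * (k : ℂ) ∧ S + 1 ∈ 𝔪 := by
  classical
  have hchar : CharP (𝕆 ⧸ 𝔪) ℓ := charP_quotient ℓ 𝔪 hℓ
  obtain ⟨ω, hω⟩ := exists_omega ℓ 𝔪 hℓ
  let π : 𝕆 →+* 𝕆 ⧸ 𝔪 := Ideal.Quotient.mk 𝔪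
  -- `χ(a) = ω(a⁻¹)`
  let ωinv : (ZMod ℓ)ˣ →* 𝕆ˣ := ω.comp (MulEquiv.inv (ZMod ℓ)ˣ).toMonoidHom
  let χu : (ZMod ℓ)ˣ →* ℂˣ := (Units.map ((integralClosure ℤ ℂ).val : 𝕆 →* ℂ)).comp ωinv
  let χ : DirichletCharacter ℂ ℓ := MulChar.ofUnitHom χu
  have hχunit : ∀ u : (ZMod ℓ)ˣ, χ (u : ZMod ℓ) = (((ω u⁻¹ : 𝕆ˣ) : 𝕆) : ℂ) := by
    intro u
    change (MulChar.ofUnitHom χu) (u : ZMod ℓ) = _
    rw [MulChar.ofUnitHom_coe]
    rfl
  -- the pointwise statement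
  have hpt : ∀ a : ZMod ℓ, ∃ x : 𝕆, (x : ℂ) = χ a ∧
      x * ((a.val : ℕ) : 𝕆) - (if a = 0 then 0 else 1) ∈ 𝔪 := by
    intro a
    by_cases ha : a = 0
    · refine ⟨0, ?_, ?_⟩
      · rw [ha, MulChar.map_zero]; rfl
      · simp [ha]
    · let u : (ZMod ℓ)ˣ := Units.mk0 a ha
      refine ⟨((ω u⁻¹ : 𝕆ˣ) : 𝕆), ?_, ?_⟩
      · rw [← hχunit u]; rfl
      · rw [if_neg ha]
        -- `ω(u⁻¹) ≡ val(u⁻¹)` and `val(u⁻¹) · val(u) ≡ 1`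
        have h1 := hω u⁻¹
        have h2 : (((((u⁻¹ : (ZMod ℓ)ˣ) : ZMod ℓ).val : ℕ) : 𝕆)) * ((a.val : ℕ) : 𝕆) - 1 ∈ 𝔪 := by
          rw [← Ideal.Quotient.eq_zero_iff_mem, map_sub, map_mul, map_one, map_natCast, map_natCast,
            sub_eq_zero]
          have : ((((u⁻¹ : (ZMod ℓ)ˣ) : ZMod ℓ).val * a.val : ℕ) : ZMod ℓ) = 1 := by
            push_cast
            rw [ZMod.natCast_zmod_val, ZMod.natCast_zmod_val]
            have : ((u⁻¹ : (ZMod ℓ)ˣ) : ZMod ℓ) * (u : ZMod ℓ) = 1 := by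
              rw [← Units.val_mul, inv_mul_cancel, Units.val_one]
            exact this
          have h3 := congrArg (ZMod.castHom (dvd_refl ℓ) (𝕆 ⧸ 𝔪)) this
          rw [map_natCast, map_one] at h3
          rw [← Nat.cast_mul]
          exact h3
        have : ((ω u⁻¹ : 𝕆ˣ) : 𝕆) * ((a.val : ℕ) : 𝕆) - 1 =
            (((ω u⁻¹ : 𝕆ˣ) : 𝕆) - ((((u⁻¹ : (ZMod ℓ)ˣ) : ZMod ℓ).val : ℕ) : 𝕆)) * ((a.val : ℕ) : 𝕆) +
            ((((((u⁻¹ : (ZMod ℓ)ˣ) : ZMod ℓ).val : ℕ) : 𝕆)) * ((a.val : ℕ) : 𝕆) - 1) := by ring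
        rw [this]
        exact 𝔪.add_mem (𝔪.mul_mem_right _ h1) h2
  refine ⟨χ, ?_, hpt, ?_⟩
  · -- oddness
    change χ (-1) = -1
    have hneg : ((-1 : (ZMod ℓ)ˣ) : ZMod ℓ) = -1 := by simp
    rw [← hneg, hχunit, inv_neg, inv_one]
    set y : 𝕆 := ((ω (-1) : 𝕆ˣ) : 𝕆) with hy
    have hy2 : y * y = 1 := by
      rw [hy, ← Units.val_mul, ← map_mul, neg_one_mul, neg_neg, map_one, Units.val_one]
    have hcases : y = 1 ∨ y = -1 := mul_self_eq_one_iff.mp hy2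
    rcases hcases with h1 | h1
    · exfalso
      -- `1 ≡ -1`, so `2 ∈ 𝔪`, impossible for `ℓ` odd
      have h2 := hω (-1)
      rw [← hy, h1] at h2
      have hval : ((((-1 : (ZMod ℓ)ˣ) : ZMod ℓ).val : ℕ) : 𝕆 ⧸ 𝔪) = -1 := by
        have : ((((-1 : (ZMod ℓ)ˣ) : ZMod ℓ).val : ℕ) : ZMod ℓ) = -1 := by
          rw [ZMod.natCast_zmod_val, hneg]
        have h3 := congrArg (ZMod.castHom (dvd_refl ℓ) (𝕆 ⧸ 𝔪)) this
        rw [map_natCast, map_neg, map_one] at h3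
        exact h3
      rw [← Ideal.Quotient.eq_zero_iff_mem, map_sub, map_one, map_natCast, hval, sub_neg_eq_add] at h2
      have h4 : ((2 : ℕ) : 𝕆 ⧸ 𝔪) = 0 := by
        rw [← h2]; norm_num
      rw [CharP.cast_eq_zero_iff (𝕆 ⧸ 𝔪) ℓ] at h4
      exact hℓ2 ((Nat.prime_dvd_prime_iff_eq hℓF.out Nat.prime_two).1 h4)
    · rw [h1]; simp
  · -- Kummer's congruence
    choose x hx1 hx2 using hpt
    refine ⟨∑ k ∈ Finset.range ℓ, x (k : ZMod ℓ) * ((k : ℕ) : 𝕆), ?_, ?_⟩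
    · rw [← Subalgebra.coe_val, map_sum]
      refine Finset.sum_congr rfl fun k _ => ?_
      rw [map_mul, map_natCast]
      change (x (k : ZMod ℓ) : ℂ) * _ = _
      rw [hx1]
    · have hsum : (∑ k ∈ Finset.range ℓ, x (k : ZMod ℓ) * ((k : ℕ) : 𝕆)) -
          ∑ k ∈ Finset.range ℓ, (if ((k : ℕ) : ZMod ℓ) = 0 then (0 : 𝕆) else 1) ∈ 𝔪 := by
        rw [← Finset.sum_sub_distrib]
        refine 𝔪.sum_mem fun k hk => ?_
        have := hx2 (k : ZMod ℓ)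
        rwa [ZMod.val_natCast_of_lt (Finset.mem_range.mp hk)] at this
      have hcount : ∑ k ∈ Finset.range ℓ, (if ((k : ℕ) : ZMod ℓ) = 0 then (0 : 𝕆) else 1) =
          (ℓ : 𝕆) - 1 := by
        have hsplit : ∀ k ∈ Finset.range ℓ, (if ((k : ℕ) : ZMod ℓ) = 0 then (0 : 𝕆) else 1) =
            1 - (if k = 0 then (1 : 𝕆) else 0) := by
          intro k hk
          have hiff : ((k : ℕ) : ZMod ℓ) = 0 ↔ k = 0 := by
            rw [ZMod.natCast_eq_zero_iff]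
            constructor
            · intro h
              by_contra h0
              exact absurd (Nat.le_of_dvd (Nat.pos_of_ne_zero h0) h)
                (not_le.mpr (Finset.mem_range.mp hk))
            · rintro rfl; exact dvd_zero _
          by_cases h0 : k = 0
          · simp [h0]
          · rw [if_neg (fun h => h0 (hiff.mp h)), if_neg h0, sub_zero]
        rw [Finset.sum_congr rfl hsplit, Finset.sum_sub_distrib, Finset.sum_const, Finset.card_range,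
          nsmul_eq_mul, mul_one, Finset.sum_ite_eq' (Finset.range ℓ) 0 (fun _ => (1 : 𝕆)),
          if_pos (Finset.mem_range.mpr hℓF.out.pos)]
      rw [hcount] at hsum
      have : (∑ k ∈ Finset.range ℓ, x (k : ZMod ℓ) * ((k : ℕ) : 𝕆)) + 1 =
          ((∑ k ∈ Finset.range ℓ, x (k : ZMod ℓ) * ((k : ℕ) : 𝕆)) - ((ℓ : 𝕆) - 1)) + (ℓ : 𝕆) := by
        ring
      rw [this]
      exact 𝔪.add_mem hsum hℓ

/-! ### 5. Power series: multiplication by a series `≡ c₀ (mod I)` -/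

/-- If all coefficients of `B` of positive index lie in an ideal `I`, then
`A · B ≡ (constant term of B) · A (mod I)` coefficientwise. -/
theorem coeff_mul_sub_mem {R : Type*} [CommRing R] (I : Ideal R) (A B : PowerSeries R)
    (hB : ∀ n : ℕ, 0 < n → PowerSeries.coeff n B ∈ I) (n : ℕ) :
    PowerSeries.coeff n (A * B) - PowerSeries.coeff n A * PowerSeries.coeff 0 B ∈ I := by
  classical
  rw [PowerSeries.coeff_mul]
  have hmem : (n, 0) ∈ Finset.HasAntidiagonal.antidiagonal n := by simp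
  rw [← Finset.add_sum_erase _ _ hmem, add_sub_cancel_left]
  refine I.sum_mem fun p hp => ?_
  have hp' := Finset.mem_erase.mp hp
  have hpn : p.1 + p.2 = n := Finset.HasAntidiagonal.mem_antidiagonal.mp hp'.2
  have hp2 : 0 < p.2 := by
    rcases Nat.eq_zero_or_pos p.2 with h0 | h0
    · exfalso
      apply hp'.1
      ext
      · simp only; omega
      · simp only; exact h0
    · exact h0
  exact I.mul_mem_left _ (hB _ hp2)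

/-! ### 6. The integral model of `(-2ℓ) · E₁^χ` -/

/-- **The series `G = (-2ℓ) · E₁^χ` is integral, `≡ -1 (mod 𝔪)`.**  Here `E₁^χ` is the `q`-series with
constant term `-(1/(2ℓ)) ∑_{k<ℓ} χ(k) k` and `n`-th coefficient `∑_{d ∣ n} χ(d)` — the `q`-expansion
of the weight-one Eisenstein series of `DS/Eis1/*91.exists_eisOne` at `N = ℓ`. -/
theorem exists_teichmuller_series (ℓ : ℕ) [hℓF : Fact ℓ.Prime] (hℓ2 : ℓ ≠ 2) (𝔪 : Ideal 𝕆)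
    [h𝔪 : 𝔪.IsMaximal] (hℓ : (ℓ : 𝕆) ∈ 𝔪) :
    ∃ χ : DirichletCharacter ℂ ℓ, χ.Odd ∧
      (∀ a : ZMod ℓ, ∃ x : 𝕆, (x : ℂ) = χ a ∧
        x * ((a.val : ℕ) : 𝕆) - (if a = 0 then 0 else 1) ∈ 𝔪) ∧
      ∃ G : PowerSeries 𝕆,
        ((PowerSeries.coeff 0 G : 𝕆) : ℂ) =
          (-2 * (ℓ : ℂ)) * (-(1 / (2 * (ℓ : ℂ))) * ∑ k ∈ Finset.range ℓ, χ (k : ZMod ℓ) * (k : ℂ)) ∧
        (∀ n : ℕ, 0 < n → ((PowerSeries.coeff n G : 𝕆) : ℂ) =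
          (-2 * (ℓ : ℂ)) * ∑ d ∈ n.divisors, χ (d : ZMod ℓ)) ∧
        PowerSeries.coeff 0 G + 1 ∈ 𝔪 ∧ ∀ n : ℕ, 0 < n → PowerSeries.coeff n G ∈ 𝔪 := by
  classical
  obtain ⟨χ, hodd, hpt, S, hS, hS1⟩ := exists_teichmuller ℓ hℓ2 𝔪 hℓ
  refine ⟨χ, hodd, hpt, ?_⟩
  choose x hx1 _ using hpt
  refine ⟨PowerSeries.mk fun n => if n = 0 then S else
      (-2 * (ℓ : 𝕆)) * ∑ d ∈ n.divisors, x (d : ZMod ℓ), ?_, ?_, ?_, ?_⟩
  · rw [PowerSeries.coeff_mk, if_pos rfl, hS]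
    have hℓ0 : (ℓ : ℂ) ≠ 0 := Nat.cast_ne_zero.mpr hℓF.out.ne_zero
    field_simp
  · intro n hn
    rw [PowerSeries.coeff_mk, if_neg hn.ne']
    rw [← Subalgebra.coe_val, map_mul, map_sum]
    have h2 : (integralClosure ℤ ℂ).val (-2 * (ℓ : 𝕆)) = -2 * (ℓ : ℂ) := by
      rw [map_mul, map_neg, map_ofNat, map_natCast]
    rw [h2]
    congr 1
    refine Finset.sum_congr rfl fun d _ => ?_
    change (x (d : ZMod ℓ) : ℂ) = _
    rw [hx1]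
  · rw [PowerSeries.coeff_mk, if_pos rfl]
    exact hS1
  · intro n hn
    rw [PowerSeries.coeff_mk, if_neg hn.ne']
    have : (-2 * (ℓ : 𝕆)) * ∑ d ∈ n.divisors, x (d : ZMod ℓ) =
        (ℓ : 𝕆) * (-2 * ∑ d ∈ n.divisors, x (d : ZMod ℓ)) := by ring
    rw [this]
    exact 𝔪.mul_mem_right _ hℓ

end Fermat.Agent.DS.Eis1.Teich86
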